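import Fermat.Agent.S24.Cusp.QSys
import Fermat.Agent.S24.QB.QExpK
import Fermat.Agent.S24.IotaRoot
import Fermat.Agent.S24.StabJ

set_option autoImplicit false

/-!
The concrete `q^(1/N)`-expansion system over `ℚ̄` (from `QB.QExpK`, `IotaRoot`, `StabJ`).

This file deliberately does NOT import `Cusp.Fibre` / `Puiseux.CuspWire` (which import the
skeleton lemmas `Modular.M0`, `Modular.M3`), so that the degree block may use `qExpSys`.
-/

namespace Fermat.Agent.S24.Cusp

open UpperHalfPlane ModularCurve HahnSeries CongruenceSubgroup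
open Fermat.Agent.S24.Puiseux
open scoped MatrixGroups

theorem moebPt_eq_mob (a d : ℕ) (b : ℤ) (ha : 0 < a) (hd : 0 < d) (τ : ℍ) :
    Fermat.Agent.S24.QB.moebPt a d b ha hd τ = mob a d b ha hd τ :=
  UpperHalfPlane.ext rfl

theorem scaleH_eq_mob (δ : ℕ) [NeZero δ] (τ : ℍ) :
    Fermat.Agent.S24.StabAbs.scaleH δ τ
      = mob δ 1 0 (Nat.pos_of_ne_zero (NeZero.ne δ)) one_pos τ := by
  apply UpperHalfPlane.ext
  rw [Fermat.Agent.S24.StabAbs.coe_scaleH, coe_mob]
  simp

theorem qExpand_jgen_eq_cuspP {L : Type} [Field L] [Algebra ℚ L] (ζ : Lˣ) (N δ : ℕ) [NeZero N]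
    [NeZero δ] : qExpand L N (jgen L δ) = cuspP ζ N δ 1 0 := by
  have : NeZero (N * δ) := ⟨Nat.mul_ne_zero (NeZero.ne N) (NeZero.ne δ)⟩
  have : NeZero (δ * N) := ⟨Nat.mul_ne_zero (NeZero.ne δ) (NeZero.ne N)⟩
  rw [jgen, coeffEmb_qExpand_jq, qExpand_qExpand, cuspP_one_zero]
  exact qExpand_congr (mul_comm N δ) _

/-- The `q^(1/N)`-expansion system over `ℚ̄`. -/
noncomputable def qExpSys (N : ℕ) [NeZero N] : QExpSys (AlgebraicClosure ℚ) N where
  Has := Fermat.Agent.S24.QB.HasQExpK Fermat.Agent.S24.IotaRoot.embQbar N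
  ι := Fermat.Agent.S24.IotaRoot.embQbar
  has_add := fun hA hB => hA.add hB
  has_mul := fun hA hB => hA.mul hB
  has_const := Fermat.Agent.S24.QB.hasQExpK_algebraMap _ N
  has_unique := fun hA hB => hA.unique (NeZero.ne N) hB
  has_fun := fun hA hB => hA.fun_unique hB
  ζ := (Fermat.Agent.S24.QB.exists_unit_map_eq_exp Fermat.Agent.S24.IotaRoot.embQbar
    (NeZero.ne N)).choose
  hζ := (Fermat.Agent.S24.QB.exists_unit_map_eq_exp Fermat.Agent.S24.IotaRoot.embQbar
    (NeZero.ne N)).choose_spec.1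
  has_shift := fun hA => hA.shift_T _
    (Fermat.Agent.S24.QB.exists_unit_map_eq_exp Fermat.Agent.S24.IotaRoot.embQbar
      (NeZero.ne N)).choose_spec.2
  jfun := Fermat.Agent.S24.JFun.jFun
  jfun_smul := Fermat.Agent.S24.JFun.jFun_smul
  has_j := fun a d b ha hd hadN => by
    refine ⟨cuspP (Fermat.Agent.S24.QB.exists_unit_map_eq_exp Fermat.Agent.S24.IotaRoot.embQbar
      (NeZero.ne N)).choose N a d b, ?_⟩
    have h := Fermat.Agent.S24.QB.hasQExpK_cuspP Fermat.Agent.S24.IotaRoot.embQbar (NeZero.ne N) _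
      (Fermat.Agent.S24.QB.exists_unit_map_eq_exp Fermat.Agent.S24.IotaRoot.embQbar
        (NeZero.ne N)).choose_spec.2 a d b (dvd_trans (dvd_mul_left d a) hadN) ha hd
    exact h.congr fun τ => by rw [moebPt_eq_mob]
  has_jgen := fun δ _ hδN => by
    have h := Fermat.Agent.S24.QB.hasQExpK_cuspP Fermat.Agent.S24.IotaRoot.embQbar (NeZero.ne N) _
      (Fermat.Agent.S24.QB.exists_unit_map_eq_exp Fermat.Agent.S24.IotaRoot.embQbar
        (NeZero.ne N)).choose_spec.2 δ 1 0 (one_dvd N) (Nat.pos_of_ne_zero (NeZero.ne δ)) one_pos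
    rw [qExpand_jgen_eq_cuspP (Fermat.Agent.S24.QB.exists_unit_map_eq_exp
      Fermat.Agent.S24.IotaRoot.embQbar (NeZero.ne N)).choose N δ]
    exact h.congr fun τ => by rw [moebPt_eq_mob]
  stab := fun g hg => by
    apply Fermat.Agent.S24.StabJ.mem_Gamma0_of_jFun_scale N g
    intro τ
    rw [scaleH_eq_mob, scaleH_eq_mob]
    exact hg τ

end Fermat.Agent.S24.Cusp
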