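import Fermat.Agent.S24.Cusp.Fibre
import Fermat.Agent.S24.Cusp.Sys

set_option autoImplicit false

/-!
M7: the number of poles of `j` on `X₀(N)` is `cuspCount N`, from the concrete `q^(1/N)`-expansion
system `qExpSys N` (`Cusp.Sys`) and the generic wiring `Cusp.Fibre`.
-/

namespace Fermat.Agent.S24.Cusp

open ModularCurve AlgebraicCurve
open Fermat.Agent.S24.Modular

/-- **M7**: the number of poles of `j` on `X₀(N)` is the number of cusps. -/
theorem card_fibre_infty_main (N : ℕ) [NeZero N] :
    Nat.card {v : Place Kbar (FN N) // v.ord (jF N) < 0} = cuspCount N :=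
  (qExpSys N).card_fibre_infty

end Fermat.Agent.S24.Cusp
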