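import Fermat.Agent.S24.Cusp.QSys
import Fermat.Agent.S24.QB.QExpK
import Fermat.Agent.S24.IotaRoot
import Fermat.Agent.S24.StabJ
import Fermat.Agent.S24.PolyJQExpK
import Fermat.Agent.S24.Degree.Descent
import Fermat.Agent.S24.Degree.Lower
import Fermat.Agent.S24.DegreeAbs
import Fermat.Agent.S24.Comb.Counts
import Fermat.Agent.S24.Modular.Defs

set_option autoImplicit false
set_option linter.style.haveILetI false

/-!
# M3, upper bound, via the cusp embeddings

For a good series `f` (in particular every element of the `ℚ̄`-algebra generated by the `j(q^d)`,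
`d ∣ N`), the polynomial `∏_x (X - cuspQ x f)` over the cosets `x ∈ SL(2,ℤ)/Γ₀(N)` has
coefficients with `SL(2,ℤ)`-invariant analytic avatars, hence (`PolyJQExpK.exists_polynomial`)
coefficients in `ℚ̄[j]`; its root `cuspQ 1 f = f(q^(1/N) ↦ q)` gives a monic relation of degree
`[SL(2,ℤ) : Γ₀(N)]` for `f` over `ℚ̄[j]`.  No growth estimates and no descent are needed: the
expansions are `ℚ̄`-rational from the start.
-/

namespace Fermat.Agent.S24.Cusp

open UpperHalfPlane ModularCurve HahnSeries CongruenceSubgroup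
open Fermat.Agent.S24.Puiseux
open scoped MatrixGroups

variable {L : Type} [Field L] [Algebra ℚ L] {N : ℕ} [NeZero N] (Q : QExpSys L N)

namespace QExpSys

theorem has_zero : Q.Has 0 0 := by
  have h := Q.has_const 0
  rw [map_zero, map_zero] at h
  exact h

theorem has_one : Q.Has 1 1 := by
  have h := Q.has_const 1
  rw [map_one, map_one] at h
  exact h

theorem has_neg {A : LaurentSeries L} {φ : ℍ → ℂ} (h : Q.Has A φ) : Q.Has (-A) (-φ) := by
  have h1 := Q.has_mul (Q.has_const (-1)) h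
  have e1 : algebraMap L (LaurentSeries L) (-1) * A = -A := by
    rw [map_neg, map_one, neg_one_mul]
  have e2 : (fun _ : ℍ => Q.ι (-1)) * φ = -φ := by
    funext τ
    simp
  rw [e1, e2] at h1
  exact h1

theorem has_sum {σ : Type*} (s : Finset σ) (A : σ → LaurentSeries L) (φ : σ → ℍ → ℂ)
    (h : ∀ i ∈ s, Q.Has (A i) (φ i)) : Q.Has (∑ i ∈ s, A i) (∑ i ∈ s, φ i) := by
  classical
  induction s using Finset.induction_on with
  | empty =>
    rw [Finset.sum_empty, Finset.sum_empty]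
    exact Q.has_zero
  | insert a s ha ih =>
    rw [Finset.sum_insert ha, Finset.sum_insert ha]
    exact Q.has_add (h a (Finset.mem_insert_self a s))
      (ih fun i hi => h i (Finset.mem_insert_of_mem hi))

/-- Coefficientwise expansion relation between polynomials over the Laurent series and
polynomials over functions. -/
def HasPoly (P : Polynomial (LaurentSeries L)) (Φ : Polynomial (ℍ → ℂ)) : Prop :=
  ∀ k, Q.Has (P.coeff k) (Φ.coeff k)

theorem hasPoly_one : Q.HasPoly 1 1 := by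
  intro k
  rw [Polynomial.coeff_one, Polynomial.coeff_one]
  split_ifs
  · exact Q.has_one
  · exact Q.has_zero

theorem hasPoly_mul {P P' : Polynomial (LaurentSeries L)} {Φ Φ' : Polynomial (ℍ → ℂ)}
    (h : Q.HasPoly P Φ) (h' : Q.HasPoly P' Φ') : Q.HasPoly (P * P') (Φ * Φ') := by
  intro k
  rw [Polynomial.coeff_mul, Polynomial.coeff_mul]
  exact Q.has_sum _ _ _ fun x _ => Q.has_mul (h x.1) (h' x.2)

theorem hasPoly_X_add_C {A : LaurentSeries L} {φ : ℍ → ℂ} (h : Q.Has A φ) :
    Q.HasPoly (Polynomial.X + Polynomial.C A) (Polynomial.X + Polynomial.C φ) := by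
  intro k
  rw [Polynomial.coeff_add, Polynomial.coeff_add, Polynomial.coeff_X, Polynomial.coeff_X,
    Polynomial.coeff_C, Polynomial.coeff_C]
  refine Q.has_add ?_ ?_
  · split_ifs
    · exact Q.has_one
    · exact Q.has_zero
  · split_ifs
    · exact h
    · exact Q.has_zero

theorem hasPoly_prod {σ : Type*} (s : Finset σ) (P : σ → Polynomial (LaurentSeries L))
    (Φ : σ → Polynomial (ℍ → ℂ)) (h : ∀ i ∈ s, Q.HasPoly (P i) (Φ i)) :
    Q.HasPoly (∏ i ∈ s, P i) (∏ i ∈ s, Φ i) := by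
  classical
  induction s using Finset.induction_on with
  | empty =>
    rw [Finset.prod_empty, Finset.prod_empty]
    exact Q.hasPoly_one
  | insert a s ha ih =>
    rw [Finset.prod_insert ha, Finset.prod_insert ha]
    exact Q.hasPoly_mul (h a (Finset.mem_insert_self a s))
      (ih fun i hi => h i (Finset.mem_insert_of_mem hi))

/-! ### Translates of the analytic avatar -/

/-- The translate `funOf f ∘ g⁻¹`. -/
noncomputable def transl (f : Q.goodSubalgebra) (g : SL(2, ℤ)) : ℍ → ℂ :=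
  fun τ => Q.funOf f (g⁻¹ • τ)

theorem transl_mul_of_mem_Gamma0 (f : Q.goodSubalgebra) (g γ₀ : SL(2, ℤ))
    (hγ₀ : γ₀ ∈ Gamma0 N) : Q.transl f (g * γ₀) = Q.transl f g := by
  funext τ
  simp only [transl]
  rw [mul_inv_rev, mul_smul]
  exact Q.funOf_Gamma0 f γ₀⁻¹ (inv_mem hγ₀) _

/-- The translate attached to a left coset. -/
noncomputable def translQ (f : Q.goodSubalgebra) (x : SL(2, ℤ) ⧸ Gamma0 N) : ℍ → ℂ :=
  Q.transl f (Quotient.out x)

theorem translQ_mk (f : Q.goodSubalgebra) (g : SL(2, ℤ)) :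
    Q.translQ f (g : SL(2, ℤ) ⧸ Gamma0 N) = Q.transl f g := by
  obtain ⟨h, hh⟩ := QuotientGroup.mk_out_eq_mul (Gamma0 N) g
  rw [translQ, hh]
  exact Q.transl_mul_of_mem_Gamma0 f g h h.2

theorem has_cuspQ_translQ (f : Q.goodSubalgebra) (x : SL(2, ℤ) ⧸ Gamma0 N) :
    Q.Has (Q.cuspQ x f) (Q.translQ f x) :=
  Q.has_cuspHom (Quotient.out x) f

theorem translQ_smul (f : Q.goodSubalgebra) (γ : SL(2, ℤ)) (x : SL(2, ℤ) ⧸ Gamma0 N) (τ : ℍ) :
    Q.translQ f x (γ • τ) = Q.translQ f (γ⁻¹ • x) τ := by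
  induction x using QuotientGroup.induction_on with
  | H g =>
    have e : γ⁻¹ • (g : SL(2, ℤ) ⧸ Gamma0 N)
        = ((γ⁻¹ * g : SL(2, ℤ)) : SL(2, ℤ) ⧸ Gamma0 N) := rfl
    rw [e, Q.translQ_mk, Q.translQ_mk]
    simp only [transl]
    rw [mul_inv_rev, inv_inv, mul_smul]

/-- Precomposition with `γ`, as a ring endomorphism of the functions on `ℍ`. -/
noncomputable def precomp (γ : SL(2, ℤ)) : (ℍ → ℂ) →+* (ℍ → ℂ) :=
  RingHom.pi fun τ => Pi.evalRingHom (fun _ : ℍ => ℂ) (γ • τ)

theorem precomp_apply (γ : SL(2, ℤ)) (φ : ℍ → ℂ) (τ : ℍ) : precomp γ φ τ = φ (γ • τ) := rfl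

section CharPoly

variable [Fintype (SL(2, ℤ) ⧸ Gamma0 N)]

/-- The characteristic polynomial of `f` over the cusp embeddings. -/
noncomputable def cuspCharPoly (f : Q.goodSubalgebra) : Polynomial (LaurentSeries L) :=
  ∏ x : SL(2, ℤ) ⧸ Gamma0 N, (Polynomial.X + Polynomial.C (-(Q.cuspQ x f)))

/-- Its analytic avatar. -/
noncomputable def translCharPoly (f : Q.goodSubalgebra) : Polynomial (ℍ → ℂ) :=
  ∏ x : SL(2, ℤ) ⧸ Gamma0 N, (Polynomial.X + Polynomial.C (-(Q.translQ f x)))

theorem hasPoly_charPoly (f : Q.goodSubalgebra) :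
    Q.HasPoly (Q.cuspCharPoly f) (Q.translCharPoly f) :=
  Q.hasPoly_prod _ _ _ fun x _ => Q.hasPoly_X_add_C (Q.has_neg (Q.has_cuspQ_translQ f x))

theorem cuspCharPoly_monic (f : Q.goodSubalgebra) : (Q.cuspCharPoly f).Monic :=
  Polynomial.monic_prod_of_monic _ _ fun _ _ => Polynomial.monic_X_add_C _

theorem cuspCharPoly_natDegree (f : Q.goodSubalgebra) :
    (Q.cuspCharPoly f).natDegree = Fintype.card (SL(2, ℤ) ⧸ Gamma0 N) := by
  rw [cuspCharPoly, Polynomial.natDegree_prod_of_monic _ _ fun _ _ => Polynomial.monic_X_add_C _]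
  simp only [Polynomial.natDegree_X_add_C, Finset.sum_const, Finset.card_univ, smul_eq_mul,
    mul_one]

theorem cuspCharPoly_eval (f : Q.goodSubalgebra) (x : SL(2, ℤ) ⧸ Gamma0 N) :
    (Q.cuspCharPoly f).eval (Q.cuspQ x f) = 0 := by
  rw [cuspCharPoly, Polynomial.eval_prod]
  refine Finset.prod_eq_zero (Finset.mem_univ x) ?_
  simp

theorem map_precomp_translCharPoly (f : Q.goodSubalgebra) (γ : SL(2, ℤ)) :
    (Q.translCharPoly f).map (precomp γ) = Q.translCharPoly f := by
  rw [translCharPoly, Polynomial.map_prod]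
  have h1 : ∀ x : SL(2, ℤ) ⧸ Gamma0 N,
      (Polynomial.X + Polynomial.C (-(Q.translQ f x))).map (precomp γ)
        = Polynomial.X + Polynomial.C (-(Q.translQ f (γ⁻¹ • x))) := by
    intro x
    rw [Polynomial.map_add, Polynomial.map_X, Polynomial.map_C]
    congr 2
    funext τ
    rw [precomp_apply, Pi.neg_apply, Pi.neg_apply, Q.translQ_smul]
  simp only [h1]
  exact Equiv.prod_comp (MulAction.toPerm (γ⁻¹ : SL(2, ℤ)))
    (fun x : SL(2, ℤ) ⧸ Gamma0 N => Polynomial.X + Polynomial.C (-(Q.translQ f x)))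

theorem translCharPoly_coeff_smul (f : Q.goodSubalgebra) (k : ℕ) (γ : SL(2, ℤ)) (τ : ℍ) :
    (Q.translCharPoly f).coeff k (γ • τ) = (Q.translCharPoly f).coeff k τ := by
  have h := congrArg (fun P : Polynomial (ℍ → ℂ) => P.coeff k τ)
    (Q.map_precomp_translCharPoly f γ)
  simp only [Polynomial.coeff_map, precomp_apply] at h
  exact h

/-- **Monic relation from the cusp embeddings** (abstract form): if invariant functions with an
expansion are polynomials in `j`, every good series is a root of a monic polynomial of degree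
`[SL(2,ℤ) : Γ₀(N)]` with coefficients polynomials in `j`. -/
theorem exists_relation_of_hpoly
    (hpoly : ∀ (A : LaurentSeries L) (φ : ℍ → ℂ), Q.Has A φ →
      (∀ (γ : SL(2, ℤ)) (τ : ℍ), φ (γ • τ) = φ τ) →
      ∃ R : Polynomial L, A = qExpand L N (Polynomial.aeval (jgen L 1) R))
    (f : Q.goodSubalgebra) :
    ∃ R : ℕ → Polynomial L,
      (f : LaurentSeries L) ^ Fintype.card (SL(2, ℤ) ⧸ Gamma0 N)
        + ∑ k ∈ Finset.range (Fintype.card (SL(2, ℤ) ⧸ Gamma0 N)),
            Polynomial.aeval (jgen L 1) (R k) * (f : LaurentSeries L) ^ k = 0 := by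
  have hcoef : ∀ k, ∃ R : Polynomial L,
      (Q.cuspCharPoly f).coeff k = qExpand L N (Polynomial.aeval (jgen L 1) R) := fun k =>
    hpoly _ _ (Q.hasPoly_charPoly f k) (Q.translCharPoly_coeff_smul f k)
  choose R hR using hcoef
  refine ⟨R, ?_⟩
  apply qExpand_injective N
  rw [map_zero, map_add, map_pow, map_sum]
  have hroot : (Q.cuspCharPoly f).eval (qExpand L N (f : LaurentSeries L)) = 0 := by
    rw [← Q.cuspHom_one f, ← Q.cuspQ_mk 1]
    exact Q.cuspCharPoly_eval f _
  have h1 := congrArg (Polynomial.eval (qExpand L N (f : LaurentSeries L)))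
    (Q.cuspCharPoly_monic f).as_sum
  rw [hroot, Polynomial.eval_add, Polynomial.eval_pow, Polynomial.eval_X,
    Polynomial.eval_finsetSum, Q.cuspCharPoly_natDegree f] at h1
  rw [h1]
  congr 1
  refine Finset.sum_congr rfl fun k _ => ?_
  rw [Polynomial.eval_mul, Polynomial.eval_C, Polynomial.eval_pow, Polynomial.eval_X, map_mul,
    map_pow, hR k]

end CharPoly

end QExpSys

/-! ### The concrete system over `ℚ̄`

`degSys N` is a verbatim copy of `Cusp.qExpSys N` (file `Cusp/Inst.lean`), repeated here under a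
fresh name because `Cusp/Inst.lean` imports the M7 wiring, which imports `Modular/M3.lean`:
this file must stay importable *by* `Modular/M3.lean`. -/

open Fermat.Agent.S24.Modular

theorem degMoebPt_eq_mob (a d : ℕ) (b : ℤ) (ha : 0 < a) (hd : 0 < d) (τ : ℍ) :
    Fermat.Agent.S24.QB.moebPt a d b ha hd τ = mob a d b ha hd τ :=
  UpperHalfPlane.ext rfl

theorem degScaleH_eq_mob (δ : ℕ) [NeZero δ] (τ : ℍ) :
    Fermat.Agent.S24.StabAbs.scaleH δ τ
      = mob δ 1 0 (Nat.pos_of_ne_zero (NeZero.ne δ)) one_pos τ := by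
  apply UpperHalfPlane.ext
  rw [Fermat.Agent.S24.StabAbs.coe_scaleH, coe_mob]
  simp

theorem degQExpand_jgen_eq_cuspP {L : Type} [Field L] [Algebra ℚ L] (ζ : Lˣ) (N δ : ℕ)
    [NeZero N] [NeZero δ] : qExpand L N (jgen L δ) = cuspP ζ N δ 1 0 := by
  have : NeZero (N * δ) := ⟨Nat.mul_ne_zero (NeZero.ne N) (NeZero.ne δ)⟩
  have : NeZero (δ * N) := ⟨Nat.mul_ne_zero (NeZero.ne δ) (NeZero.ne N)⟩
  rw [jgen, coeffEmb_qExpand_jq, qExpand_qExpand, cuspP_one_zero]
  exact qExpand_congr (mul_comm N δ) _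

/-- The `q^(1/N)`-expansion system over `ℚ̄` (copy of `Cusp.qExpSys`, see above). -/
noncomputable def degSys (N : ℕ) [NeZero N] : QExpSys Kbar N where
  Has := Fermat.Agent.S24.QB.HasQExpK Fermat.Agent.S24.IotaRoot.embQbar N
  ι := Fermat.Agent.S24.IotaRoot.embQbar
  has_add := fun hA hB => hA.add hB
  has_mul := fun hA hB => hA.mul hB
  has_const := Fermat.Agent.S24.QB.hasQExpK_algebraMap _ N
  has_unique := fun hA hB => hA.unique (NeZero.ne N) hB
  has_fun := fun hA hB => hA.fun_unique hB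
  ζ := (Fermat.Agent.S24.QB.exists_unit_map_eq_exp Fermat.Agent.S24.IotaRoot.embQbar
    (NeZero.ne N)).choose
  hζ := (Fermat.Agent.S24.QB.exists_unit_map_eq_exp Fermat.Agent.S24.IotaRoot.embQbar
    (NeZero.ne N)).choose_spec.1
  has_shift := fun hA => hA.shift_T _
    (Fermat.Agent.S24.QB.exists_unit_map_eq_exp Fermat.Agent.S24.IotaRoot.embQbar
      (NeZero.ne N)).choose_spec.2
  jfun := Fermat.Agent.S24.JFun.jFun
  jfun_smul := Fermat.Agent.S24.JFun.jFun_smul
  has_j := fun a d b ha hd hadN => by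
    refine ⟨cuspP (Fermat.Agent.S24.QB.exists_unit_map_eq_exp Fermat.Agent.S24.IotaRoot.embQbar
      (NeZero.ne N)).choose N a d b, ?_⟩
    have h := Fermat.Agent.S24.QB.hasQExpK_cuspP Fermat.Agent.S24.IotaRoot.embQbar (NeZero.ne N) _
      (Fermat.Agent.S24.QB.exists_unit_map_eq_exp Fermat.Agent.S24.IotaRoot.embQbar
        (NeZero.ne N)).choose_spec.2 a d b (dvd_trans (dvd_mul_left d a) hadN) ha hd
    exact h.congr fun τ => by rw [degMoebPt_eq_mob]
  has_jgen := fun δ _ hδN => by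
    have h := Fermat.Agent.S24.QB.hasQExpK_cuspP Fermat.Agent.S24.IotaRoot.embQbar (NeZero.ne N) _
      (Fermat.Agent.S24.QB.exists_unit_map_eq_exp Fermat.Agent.S24.IotaRoot.embQbar
        (NeZero.ne N)).choose_spec.2 δ 1 0 (one_dvd N) (Nat.pos_of_ne_zero (NeZero.ne δ)) one_pos
    rw [degQExpand_jgen_eq_cuspP (Fermat.Agent.S24.QB.exists_unit_map_eq_exp
      Fermat.Agent.S24.IotaRoot.embQbar (NeZero.ne N)).choose N δ]
    exact h.congr fun τ => by rw [degMoebPt_eq_mob]
  stab := fun g hg => by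
    apply Fermat.Agent.S24.StabJ.mem_Gamma0_of_jFun_scale N g
    intro τ
    rw [degScaleH_eq_mob, degScaleH_eq_mob]
    exact hg τ

theorem degSys_gens_subset (N : ℕ) [NeZero N] :
    DegreeGen.gens Kbar N ⊆ ((degSys N).goodSubalgebra : Set (LaurentSeries Kbar)) := by
  rintro _ ⟨y, ⟨d, hd0, hd, rfl⟩, rfl⟩
  exact (degSys N).good_jgen d hd

/-- `PolyJ` for the concrete system. -/
theorem degSys_hpoly (N : ℕ) [NeZero N] (A : LaurentSeries Kbar) (φ : ℍ → ℂ)
    (h : (degSys N).Has A φ) (hinv : ∀ (γ : SL(2, ℤ)) (τ : ℍ), φ (γ • τ) = φ τ) :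
    ∃ R : Polynomial Kbar, A = qExpand Kbar N (Polynomial.aeval (jgen Kbar 1) R) := by
  obtain ⟨R, -, hR⟩ := Fermat.Agent.S24.PolyJQExpK.exists_polynomial
    (ι := Fermat.Agent.S24.IotaRoot.embQbar) (N := N) (A := A) (φ := φ) h hinv
  exact ⟨R, by rw [QExpSys.jgen_one]; exact hR⟩

/-- **M3, upper bound, series form**: every good series is a root of a monic polynomial of degree
`[SL(2,ℤ) : Γ₀(N)]` with coefficients in `ℚ̄[j]`. -/
theorem exists_monic_relation (N : ℕ) [NeZero N] (f : LaurentSeries Kbar)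
    (hf : f ∈ (degSys N).goodSubalgebra) :
    ∃ R : ℕ → Polynomial Kbar,
      f ^ Nat.card (SL(2, ℤ) ⧸ Gamma0 N)
        + ∑ k ∈ Finset.range (Nat.card (SL(2, ℤ) ⧸ Gamma0 N)),
            Polynomial.aeval (coeffEmb Kbar jq) (R k) * f ^ k = 0 := by
  letI : Fintype (SL(2, ℤ) ⧸ Gamma0 N) := Fintype.ofFinite _
  obtain ⟨R, hR⟩ := (degSys N).exists_relation_of_hpoly (degSys_hpoly N) ⟨f, hf⟩
  refine ⟨R, ?_⟩
  rw [Nat.card_eq_fintype_card, ← QExpSys.jgen_one]
  exact hR

/-- The same for the elements of the `ℚ̄`-algebra generated by the `j(q^d)`, `d ∣ N`. -/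
theorem exists_monic_relation_of_mem_adjoin (N : ℕ) [NeZero N] (f : LaurentSeries Kbar)
    (hf : f ∈ Algebra.adjoin Kbar (DegreeGen.gens Kbar N)) :
    ∃ R : ℕ → Polynomial Kbar,
      f ^ Nat.card (SL(2, ℤ) ⧸ Gamma0 N)
        + ∑ k ∈ Finset.range (Nat.card (SL(2, ℤ) ⧸ Gamma0 N)),
            Polynomial.aeval (coeffEmb Kbar jq) (R k) * f ^ k = 0 :=
  exists_monic_relation N f (Algebra.adjoin_le (degSys_gens_subset N) hf)

/-- **M3, upper bound, function-field form**: every element of `F_N` lying in the algebra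
generated by the `j(q^d)` is a root of a monic polynomial of degree `[SL(2,ℤ) : Γ₀(N)]` over
`ℚ̄(j)`. -/
theorem exists_monic_poly (N : ℕ) [NeZero N] (a : FN N)
    (ha : (a : LaurentSeries Kbar) ∈ Algebra.adjoin Kbar (DegreeGen.gens Kbar N)) :
    ∃ p : Polynomial (IntermediateField.adjoin Kbar {jF N}),
      p.Monic ∧ p.natDegree = Nat.card (SL(2, ℤ) ⧸ Gamma0 N) ∧ Polynomial.aeval a p = 0 := by
  obtain ⟨R, hR⟩ := exists_monic_relation_of_mem_adjoin N _ ha
  refine Fermat.Agent.S24.Degree.exists_monic_of_relation (jF N) a _ R ?_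
  apply Subtype.ext
  have hval : ∀ P : Polynomial Kbar,
      ((Polynomial.aeval (jF N) P : FN N) : LaurentSeries Kbar)
        = Polynomial.aeval (coeffEmb Kbar jq) P := by
    intro P
    have h2 := Polynomial.aeval_algHom_apply (modularFunctionFieldBar N).val (jF N) P
    exact h2.symm
  have hcoe : ((a ^ Nat.card (SL(2, ℤ) ⧸ Gamma0 N)
      + ∑ k ∈ Finset.range (Nat.card (SL(2, ℤ) ⧸ Gamma0 N)),
          Polynomial.aeval (jF N) (R k) * a ^ k : FN N) : LaurentSeries Kbar)
      = (a : LaurentSeries Kbar) ^ Nat.card (SL(2, ℤ) ⧸ Gamma0 N)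
        + ∑ k ∈ Finset.range (Nat.card (SL(2, ℤ) ⧸ Gamma0 N)),
            Polynomial.aeval (coeffEmb Kbar jq) (R k) * (a : LaurentSeries Kbar) ^ k := by
    have h3 := map_add (modularFunctionFieldBar N).val (a ^ Nat.card (SL(2, ℤ) ⧸ Gamma0 N))
      (∑ k ∈ Finset.range (Nat.card (SL(2, ℤ) ⧸ Gamma0 N)), Polynomial.aeval (jF N) (R k) * a ^ k)
    rw [map_pow, map_sum] at h3
    simp only [map_mul, map_pow] at h3
    rw [show (modularFunctionFieldBar N).val a = (a : LaurentSeries Kbar) from rfl] at h3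
    simp only [show ∀ P : Polynomial Kbar, (modularFunctionFieldBar N).val
      (Polynomial.aeval (jF N) P) = Polynomial.aeval (coeffEmb Kbar jq) P from hval] at h3
    exact h3
  rw [hcoe, hR]
  rfl

/-! ### Wiring: finiteness, `finrank ≤ ψ(N)`, and the alternative forms of M3 / M0 -/

/-- The generators `j(q^d)`, `d ∣ N`, as a subset of the function field `F_N`. -/
def gensFN (N : ℕ) : Set (FN N) :=
  {x | (x : LaurentSeries Kbar) ∈ DegreeGen.gens Kbar N}

theorem gensFN_finite (N : ℕ) [NeZero N] : (gensFN N).Finite :=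
  Set.Finite.preimage (Set.injOn_of_injective Subtype.val_injective) (DegreeGen.gens_finite Kbar N)

theorem gens_subset_FN (N : ℕ) {y : LaurentSeries Kbar} (hy : y ∈ DegreeGen.gens Kbar N) :
    y ∈ modularFunctionFieldBar N := by
  have h1 : y ∈ IntermediateField.adjoin Kbar (DegreeGen.gens Kbar N) :=
    IntermediateField.subset_adjoin Kbar _ hy
  rw [← DegreeGen.laurentBaseChange_full_eq_adjoin] at h1
  exact h1

theorem jF_mem_gensFN (N : ℕ) : jF N ∈ gensFN N :=
  DegreeGen.coeffEmb_jq_mem_gens Kbar N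

theorem image_val_gensFN (N : ℕ) :
    (Subtype.val '' gensFN N : Set (LaurentSeries Kbar)) = DegreeGen.gens Kbar N := by
  ext y
  constructor
  · rintro ⟨x, hx, rfl⟩
    exact hx
  · intro hy
    exact ⟨⟨y, gens_subset_FN N hy⟩, hy, rfl⟩

theorem adjoin_gensFN_eq_top (N : ℕ) : IntermediateField.adjoin Kbar (gensFN N) = ⊤ := by
  apply IntermediateField.lift_injective (modularFunctionFieldBar N)
  rw [IntermediateField.lift_adjoin, IntermediateField.lift_top, image_val_gensFN]
  exact (DegreeGen.laurentBaseChange_full_eq_adjoin Kbar N).symm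

theorem coe_mem_adjoin_gens_of_mem (N : ℕ) {a : FN N}
    (ha : a ∈ Algebra.adjoin Kbar (gensFN N)) :
    (a : LaurentSeries Kbar) ∈ Algebra.adjoin Kbar (DegreeGen.gens Kbar N) := by
  induction ha using Algebra.adjoin_induction with
  | mem x hx => exact Algebra.subset_adjoin hx
  | algebraMap c => exact (Algebra.adjoin Kbar (DegreeGen.gens Kbar N)).algebraMap_mem c
  | add x y _ _ hx hy => exact add_mem hx hy
  | mul x y _ _ hx hy => exact mul_mem hx hy

/-- **M3, upper half**: `F_N` is finite over `ℚ̄(j)` of degree at most `[SL(2,ℤ) : Γ₀(N)]`. -/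
theorem finite_and_finrank_le (N : ℕ) [NeZero N] :
    Module.Finite (IntermediateField.adjoin Kbar {jF N}) (FN N) ∧
      Module.finrank (IntermediateField.adjoin Kbar {jF N}) (FN N)
        ≤ Nat.card (SL(2, ℤ) ⧸ Gamma0 N) :=
  Fermat.Agent.S24.DegreeAbs.finite_and_finrank_le (jF N) (gensFN N) (gensFN_finite N)
    (adjoin_gensFN_eq_top N) (Algebra.subset_adjoin (jF_mem_gensFN N)) _
    (fun a ha => exists_monic_poly N a (coe_mem_adjoin_gens_of_mem N ha))

theorem finite_jF (N : ℕ) [NeZero N] :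
    Module.Finite (IntermediateField.adjoin Kbar {jF N}) (FN N) :=
  (finite_and_finrank_le N).1

/-- **M3 (alternative proof via the cusp embeddings)**, exact statement of
`Modular.finrank_jF`. -/
theorem finrank_jF_eq (N : ℕ) [NeZero N] :
    Module.finrank (IntermediateField.adjoin Kbar {jF N}) (FN N) = dedekindPsi N := by
  haveI := finite_jF N
  rw [← Fermat.Agent.S24.Comb.card_quotient_Gamma0 N]
  exact le_antisymm (finite_and_finrank_le N).2 (Fermat.Agent.S24.Degree.card_le_finrank_jF N)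

/-- **M0 (alternative proof)**, exact statement of `Modular.trdeg_FN`. -/
theorem trdeg_FN_eq (N : ℕ) [NeZero N] : Algebra.trdeg Kbar (FN N) = 1 := by
  haveI := finite_jF N
  haveI : Algebra.IsAlgebraic (IntermediateField.adjoin Kbar {jF N}) (FN N) :=
    Algebra.IsAlgebraic.of_finite _ _
  exact Fermat.Agent.S24.DegreeAbs.trdeg_eq_one (jF N) (transcendental_jF N)

end Fermat.Agent.S24.Cusp
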