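import Fermat.Agent.S24.Cusp.QSys
import Fermat.Agent.S24.Puiseux.CuspWire

set_option autoImplicit false

/-!
M7 (the fibre over `j = ∞`) from an abstract `q^(1/N)`-expansion system `QExpSys ℚ̄ N`:
the good subalgebra restricted to the function field `F_N` and the cusp embeddings `cuspQ` are
fed to `Puiseux.card_fibre_infty_of_embeddings`.
-/

namespace Fermat.Agent.S24.Cusp

open UpperHalfPlane ModularCurve HahnSeries AlgebraicCurve CongruenceSubgroup
open Fermat.Agent.S24.Puiseux Fermat.Agent.S24.Modular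
open scoped MatrixGroups

variable {N : ℕ} [NeZero N] (Q : QExpSys Kbar N)

namespace QExpSys

/-- The good part of the function field `F_N`. -/
noncomputable def F₀ : Subalgebra Kbar (FN N) :=
  Q.goodSubalgebra.comap (modularFunctionFieldBar N).val

theorem mem_F₀ {f : FN N} : f ∈ Q.F₀ ↔ Q.Good (f : LaurentSeries Kbar) := Iff.rfl

/-- The inclusion of `F₀` into the good subalgebra. -/
noncomputable def incl : Q.F₀ →ₐ[Kbar] Q.goodSubalgebra :=
  (((modularFunctionFieldBar N).val).comp Q.F₀.val).codRestrict Q.goodSubalgebra (fun f => f.2)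

theorem coe_incl (f : Q.F₀) :
    ((Q.incl f : Q.goodSubalgebra) : LaurentSeries Kbar) = ((f : FN N) : LaurentSeries Kbar) :=
  rfl

theorem incl_injective : Function.Injective Q.incl := by
  intro f g h
  have h1 := congrArg (fun x : Q.goodSubalgebra => (x : LaurentSeries Kbar)) h
  simp only [coe_incl] at h1
  exact Subtype.ext (Subtype.ext h1)

theorem gens_subset : DegreeGen.gens Kbar N ⊆ (Q.goodSubalgebra : Set (LaurentSeries Kbar)) := by
  rintro _ ⟨y, ⟨d, hd0, hd, rfl⟩, rfl⟩
  exact Q.good_jgen d hd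

/-- Every element of `F_N` is a quotient of good elements. -/
theorem frac (f : FN N) : ∃ a b : Q.F₀, (b : FN N) ≠ 0 ∧ f * b = a := by
  have hf : (f : LaurentSeries Kbar) ∈ IntermediateField.adjoin Kbar (DegreeGen.gens Kbar N) := by
    rw [← DegreeGen.laurentBaseChange_full_eq_adjoin]
    exact f.2
  obtain ⟨r, hr, s, hs, hfrs⟩ := IntermediateField.mem_adjoin_iff_div.mp hf
  have hle : Algebra.adjoin Kbar (DegreeGen.gens Kbar N) ≤ Q.goodSubalgebra :=
    Algebra.adjoin_le Q.gens_subset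
  have hmem : ∀ t ∈ Algebra.adjoin Kbar (DegreeGen.gens Kbar N),
      t ∈ modularFunctionFieldBar N := by
    intro t ht
    have h1 : t ∈ IntermediateField.adjoin Kbar (DegreeGen.gens Kbar N) :=
      IntermediateField.algebra_adjoin_le_adjoin Kbar _ ht
    rw [← DegreeGen.laurentBaseChange_full_eq_adjoin] at h1
    exact h1
  by_cases hs0 : s = 0
  · refine ⟨0, 1, one_ne_zero, ?_⟩
    have hf0 : f = 0 := by
      apply Subtype.ext
      rw [hfrs, hs0, div_zero]
      rfl
    rw [hf0, zero_mul]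
    rfl
  · let a : Q.F₀ := ⟨⟨r, hmem r hr⟩, hle hr⟩
    let b : Q.F₀ := ⟨⟨s, hmem s hs⟩, hle hs⟩
    refine ⟨a, b, ?_, ?_⟩
    · intro hb
      exact hs0 (congrArg (fun x : FN N => (x : LaurentSeries Kbar)) hb)
    · apply Subtype.ext
      show (f : LaurentSeries Kbar) * s = r
      rw [hfrs, div_mul_cancel₀ _ hs0]

theorem jF_mem : jF N ∈ Q.F₀ := by
  rw [mem_F₀]
  have h := Q.good_jgen 1 (one_dvd N)
  rw [jgen_one] at h
  exact h

theorem incl_jF : Q.incl ⟨jF N, Q.jF_mem⟩ = Q.jG 1 (one_dvd N) := by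
  apply Subtype.ext
  rw [coe_incl, coe_jG, jgen_one]
  rfl

/-- The cusp embeddings of the good part of `F_N`, indexed by left cosets. -/
noncomputable def rho (x : SL(2, ℤ) ⧸ Gamma0 N) : Q.F₀ →+* LaurentSeries Kbar :=
  ((Q.cuspQ x).comp Q.incl).toRingHom

theorem rho_apply (x : SL(2, ℤ) ⧸ Gamma0 N) (f : Q.F₀) : Q.rho x f = Q.cuspQ x (Q.incl f) := rfl

theorem rho_injective : Function.Injective Q.rho := by
  intro x y hxy
  have hN : jgen Kbar N ∈ modularFunctionFieldBar N :=
    coeffEmb_mem_laurentBaseChange Kbar (jqd_mem_full N dvd_rfl)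
  let JN : Q.F₀ := ⟨⟨jgen Kbar N, hN⟩, Q.good_jgen N dvd_rfl⟩
  have hJN : Q.incl JN = Q.jG N dvd_rfl := Subtype.ext rfl
  have h := congrArg (fun r : Q.F₀ →+* LaurentSeries Kbar => r JN) hxy
  simp only [rho_apply, hJN] at h
  exact Q.eq_of_cuspQ_jG_eq x y h

/-- M7 from a `q^(1/N)`-expansion system. -/
theorem card_fibre_infty (Q : QExpSys Kbar N) :
    Nat.card {v : Place Kbar (FN N) // v.ord (jF N) < 0} = cuspCount N := by
  refine card_fibre_infty_of_embeddings N Q.F₀ Q.frac Q.jF_mem Q.rho ?_ Q.rho_injective ?_ ?_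
    Q.ζ⁻¹ Q.hζ.inv ?_
  · intro x
    exact (Q.cuspQ_apply_injective x).comp Q.incl_injective
  · intro x c
    rw [rho_apply, AlgHom.commutes, AlgHom.commutes, algebraMap_laurentSeries_eq_single,
      HahnSeries.C_apply]
  · intro x
    rw [rho_apply, Q.incl_jF, Q.cuspQ_jG_one, jgen_one, coeffEmb_jq]
  · intro x f
    rw [rho_apply, rho_apply, Q.cuspQ_T_smul]

end QExpSys

end Fermat.Agent.S24.Cusp
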