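import Mathlib.Analysis.Complex.UpperHalfPlane.MoebiusAction
import Mathlib.NumberTheory.ModularForms.CongruenceSubgroups

set_option autoImplicit false

namespace Fermat.Agent.S24.Cusp

open UpperHalfPlane
open scoped MatrixGroups

/-- The point `(a τ + b) / d` of the upper half plane (`a, d > 0`). -/
noncomputable def mob (a d : ℕ) (b : ℤ) (ha : 0 < a) (hd : 0 < d) (τ : ℍ) : ℍ :=
  UpperHalfPlane.mk (((a : ℂ) * τ + b) / d) (by
    have h1 : (((a : ℂ) * τ + b) / d).im = (a : ℝ) * τ.im / d := by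
      have hd' : ((d : ℕ) : ℂ) = ((d : ℝ) : ℂ) := by push_cast; rfl
      rw [hd', Complex.div_ofReal_im]
      simp
    rw [h1]
    have := τ.im_pos
    positivity)

@[simp]
theorem coe_mob (a d : ℕ) (b : ℤ) (ha : 0 < a) (hd : 0 < d) (τ : ℍ) :
    ((mob a d b ha hd τ : ℍ) : ℂ) = ((a : ℂ) * τ + b) / d := rfl

theorem mob_one (τ : ℍ) : mob 1 1 0 one_pos one_pos τ = τ := by
  apply UpperHalfPlane.ext
  simp

theorem coe_sl_smul (g : SL(2, ℤ)) (z : ℍ) :
    ((g • z : ℍ) : ℂ) = ((g 0 0 : ℂ) * z + (g 0 1 : ℂ)) / ((g 1 0 : ℂ) * z + (g 1 1 : ℂ)) := by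
  rw [UpperHalfPlane.coe_specialLinearGroup_apply]
  simp

theorem sl_denom_ne_zero (g : SL(2, ℤ)) (z : ℍ) : ((g 1 0 : ℂ) * z + (g 1 1 : ℂ)) ≠ 0 := by
  have := UpperHalfPlane.denom_ne_zero (g : GL (Fin 2) ℝ) z
  simpa [UpperHalfPlane.denom] using this

end Fermat.Agent.S24.Cusp

namespace Fermat.Agent.S24.Cusp

open UpperHalfPlane
open scoped MatrixGroups

/-- Hermite normal form: `diag(δ,1) * γ = γ' * [[a,b],[0,d]]` with `a d = δ`, expressed on `ℍ`,
together with the relation between the lower-left entries. -/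
theorem exists_hnf (δ : ℕ) (hδ : 0 < δ) (γ : SL(2, ℤ)) :
    ∃ (γ' : SL(2, ℤ)) (a d : ℕ) (b : ℤ) (ha : 0 < a) (hd : 0 < d), a * d = δ ∧
      γ 1 0 = γ' 1 0 * a ∧
      ∀ τ : ℍ, mob δ 1 0 hδ one_pos (γ • τ) = γ' • mob a d b ha hd τ := by
  set p := γ 0 0 with hp
  set q := γ 0 1 with hq
  set r := γ 1 0 with hr
  set s := γ 1 1 with hs
  have hdet : p * s - q * r = 1 := by
    have := γ.det_coe
    rw [Matrix.det_fin_two] at this
    simpa [hp, hq, hr, hs] using this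
  set a : ℕ := Int.gcd ((δ : ℤ) * p) r with ha_def
  have ha_dvd1 : (a : ℤ) ∣ (δ : ℤ) * p := Int.gcd_dvd_left _ _
  have ha_dvd2 : (a : ℤ) ∣ r := Int.gcd_dvd_right _ _
  have ha_dvd_δ : (a : ℤ) ∣ (δ : ℤ) := by
    have h1 : (a : ℤ) ∣ (δ : ℤ) * p * s - (δ : ℤ) * q * r :=
      dvd_sub (Dvd.dvd.mul_right ha_dvd1 s) (Dvd.dvd.mul_left ha_dvd2 _)
    have h2 : (δ : ℤ) * p * s - (δ : ℤ) * q * r = δ := by
      have : (δ : ℤ) * p * s - (δ : ℤ) * q * r = δ * (p * s - q * r) := by ring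
      rw [this, hdet, mul_one]
    rwa [h2] at h1
  have ha_pos : 0 < a := by
    rcases Nat.eq_zero_or_pos a with h0 | h0
    · exfalso
      rw [h0] at ha_dvd_δ
      simp only [Nat.cast_zero, zero_dvd_iff, Nat.cast_eq_zero] at ha_dvd_δ
      omega
    · exact h0
  have ha_ne : (a : ℤ) ≠ 0 := by exact_mod_cast ha_pos.ne'
  obtain ⟨u, hu⟩ := ha_dvd1
  obtain ⟨v, hv⟩ := ha_dvd2
  obtain ⟨d', hd'⟩ := ha_dvd_δ
  set x := Int.gcdA ((δ : ℤ) * p) r with hx
  set y := Int.gcdB ((δ : ℤ) * p) r with hy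
  have hbez : (a : ℤ) = (δ : ℤ) * p * x + r * y := Int.gcd_eq_gcd_ab _ _
  have hxuyv : x * u + y * v = 1 := by
    have h1 : (a : ℤ) * (x * u + y * v) = a * 1 := by
      calc (a : ℤ) * (x * u + y * v) = (a * u) * x + (a * v) * y := by ring
        _ = (δ : ℤ) * p * x + r * y := by rw [← hu, ← hv]
        _ = a * 1 := by rw [← hbez, mul_one]
    exact mul_left_cancel₀ ha_ne h1
  have hd'_pos : 0 < d' := by
    have h1 : (0 : ℤ) < a * d' := by rw [← hd']; exact_mod_cast hδ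
    exact (mul_pos_iff_of_pos_left (by exact_mod_cast ha_pos)).mp h1
  obtain ⟨d, rfl⟩ : ∃ d : ℕ, (d : ℤ) = d' := ⟨d'.toNat, Int.toNat_of_nonneg hd'_pos.le⟩
  have hd_pos : 0 < d := by exact_mod_cast hd'_pos
  have had : a * d = δ := by exact_mod_cast hd'.symm
  set b : ℤ := x * δ * q + y * s with hb
  -- the four entry identities
  have e1 : u * a = δ * p := by rw [hu]; ring
  have e2 : v * a = r := by rw [hv]; ring
  have e3 : u * b - y * d = δ * q := by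
    have h1 : (a : ℤ) * (u * b - y * d) = a * (δ * q) := by
      have hqr : q * r = p * s - 1 := by linarith
      calc (a : ℤ) * (u * b - y * d) = (a * u) * b - y * (a * d) := by ring
        _ = (δ * p) * (x * δ * q + y * s) - y * δ := by rw [← hu, ← hd', hb]
        _ = x * δ * δ * p * q + y * δ * (p * s - 1) := by ring
        _ = x * δ * δ * p * q + y * δ * (q * r) := by rw [hqr]
        _ = (δ * p * x + r * y) * (δ * q) := by ring
        _ = a * (δ * q) := by rw [← hbez]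
    exact mul_left_cancel₀ ha_ne h1
  have e4 : v * b + x * d = s := by
    have h1 : (a : ℤ) * (v * b + x * d) = a * s := by
      have hqr : r * q = p * s - 1 := by linarith
      calc (a : ℤ) * (v * b + x * d) = (a * v) * b + x * (a * d) := by ring
        _ = r * (x * δ * q + y * s) + x * δ := by rw [← hv, ← hd', hb]
        _ = x * δ * (r * q + 1) + y * r * s := by ring
        _ = x * δ * (p * s) + y * r * s := by rw [hqr]; ring
        _ = (δ * p * x + r * y) * s := by ring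
        _ = a * s := by rw [← hbez]
    exact mul_left_cancel₀ ha_ne h1
  have hdet' : Matrix.det !![u, -y; v, x] = 1 := by
    rw [Matrix.det_fin_two_of]
    linarith
  let γ' : SL(2, ℤ) := ⟨!![u, -y; v, x], hdet'⟩
  have g00 : γ' 0 0 = u := rfl
  have g01 : γ' 0 1 = -y := rfl
  have g10 : γ' 1 0 = v := rfl
  have g11 : γ' 1 1 = x := rfl
  refine ⟨γ', a, d, b, ha_pos, hd_pos, had, ?_, ?_⟩
  · rw [g10]
    exact e2.symm
  · intro τ
    apply UpperHalfPlane.ext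
    rw [coe_sl_smul γ', coe_mob, coe_mob, coe_sl_smul γ, g00, g01, g10, g11]
    have hden := sl_denom_ne_zero γ τ
    have hdC : (d : ℂ) ≠ 0 := by exact_mod_cast hd_pos.ne'
    have c1 : (u : ℂ) * a = δ * p := by exact_mod_cast e1
    have c2 : (v : ℂ) * a = r := by exact_mod_cast e2
    have c3 : (u : ℂ) * b - y * d = δ * q := by exact_mod_cast e3
    have c4 : (v : ℂ) * b + x * d = s := by exact_mod_cast e4
    show ((δ : ℂ) * (((p : ℂ) * τ + q) / ((r : ℂ) * τ + s)) + ((0 : ℤ) : ℂ)) / ((1 : ℕ) : ℂ)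
      = ((u : ℂ) * (((a : ℂ) * τ + b) / d) + ((-y : ℤ) : ℂ)) / ((v : ℂ) * (((a : ℂ) * τ + b) / d) + x)
    have hnum : (u : ℂ) * (((a : ℂ) * τ + b) / d) + ((-y : ℤ) : ℂ)
        = ((δ : ℂ) * p * τ + δ * q) / d := by
      field_simp
      push_cast
      linear_combination (τ : ℂ) * c1 + c3
    have hden2 : (v : ℂ) * (((a : ℂ) * τ + b) / d) + x = ((r : ℂ) * τ + s) / d := by
      field_simp
      linear_combination (τ : ℂ) * c2 + c4
    rw [hnum, hden2]
    field_simp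
    push_cast
    ring

end Fermat.Agent.S24.Cusp

namespace Fermat.Agent.S24.Cusp

open UpperHalfPlane
open scoped MatrixGroups

theorem Gamma0_mem_iff_dvd (N : ℕ) (γ : SL(2, ℤ)) :
    γ ∈ CongruenceSubgroup.Gamma0 N ↔ (N : ℤ) ∣ γ 1 0 := by
  rw [CongruenceSubgroup.Gamma0_mem, ZMod.intCast_zmod_eq_zero_iff_dvd]

/-- For `δ ∣ N` and `γ ∈ Γ₀(N)`: `δ (γ τ) = γ' (δ τ)` for some `γ' ∈ SL(2,ℤ)`. -/
theorem exists_smul_mob_of_mem_Gamma0 (N δ : ℕ) (hδ : 0 < δ) (hδN : δ ∣ N) (γ : SL(2, ℤ))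
    (hγ : γ ∈ CongruenceSubgroup.Gamma0 N) :
    ∃ γ' : SL(2, ℤ), ∀ τ : ℍ, mob δ 1 0 hδ one_pos (γ • τ) = γ' • mob δ 1 0 hδ one_pos τ := by
  set p := γ 0 0 with hp
  set q := γ 0 1 with hq
  set r := γ 1 0 with hr
  set s := γ 1 1 with hs
  have hdet : p * s - q * r = 1 := by
    have := γ.det_coe
    rw [Matrix.det_fin_two] at this
    simpa [hp, hq, hr, hs] using this
  have hdvd : (δ : ℤ) ∣ r := by
    have h1 : (N : ℤ) ∣ r := (Gamma0_mem_iff_dvd N γ).mp hγ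
    exact dvd_trans (by exact_mod_cast hδN) h1
  obtain ⟨v, hv⟩ := hdvd
  have hdet' : Matrix.det !![p, δ * q; v, s] = 1 := by
    rw [Matrix.det_fin_two_of]
    have : p * s - ↑δ * q * v = p * s - q * r := by rw [hv]; ring
    rw [this, hdet]
  let γ' : SL(2, ℤ) := ⟨!![p, δ * q; v, s], hdet'⟩
  have g00 : γ' 0 0 = p := rfl
  have g01 : γ' 0 1 = δ * q := rfl
  have g10 : γ' 1 0 = v := rfl
  have g11 : γ' 1 1 = s := rfl
  refine ⟨γ', fun τ => ?_⟩
  apply UpperHalfPlane.ext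
  rw [coe_sl_smul γ', coe_mob, coe_mob, coe_sl_smul γ, g00, g01, g10, g11]
  have hden := sl_denom_ne_zero γ τ
  have c2 : (r : ℂ) = δ * v := by exact_mod_cast hv
  show ((δ : ℂ) * (((p : ℂ) * τ + q) / ((r : ℂ) * τ + s)) + ((0 : ℤ) : ℂ)) / ((1 : ℕ) : ℂ)
      = ((p : ℂ) * (((δ : ℂ) * τ + ((0 : ℤ) : ℂ)) / ((1 : ℕ) : ℂ)) + ((δ * q : ℤ) : ℂ)) /
        ((v : ℂ) * (((δ : ℂ) * τ + ((0 : ℤ) : ℂ)) / ((1 : ℕ) : ℂ)) + s)
  have hden' : (v : ℂ) * (((δ : ℂ) * τ + ((0 : ℤ) : ℂ)) / ((1 : ℕ) : ℂ)) + s = (r : ℂ) * τ + s := by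
    rw [c2]; push_cast; ring
  rw [hden']
  field_simp
  push_cast
  ring

theorem mob_T_zpow (a d : ℕ) (b : ℤ) (ha : 0 < a) (hd : 0 < d) (n : ℤ) (τ : ℍ) :
    mob a d b ha hd (ModularGroup.T ^ n • τ) = mob a d (b + a * n) ha hd τ := by
  apply UpperHalfPlane.ext
  rw [coe_mob, coe_mob, UpperHalfPlane.modular_T_zpow_smul, UpperHalfPlane.coe_vadd]
  push_cast
  ring

end Fermat.Agent.S24.Cusp
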