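import Fermat.Prelude.Def_ModularCurve_ArithmeticGalois
import Fermat.Agent.S24.Puiseux.Triple
import Fermat.Agent.S24.Cusp.Mob

set_option autoImplicit false

namespace Fermat.Agent.S24.Cusp

open UpperHalfPlane ModularCurve HahnSeries
open Fermat.Agent.S24.Puiseux
open scoped MatrixGroups

/-- The generator `j(q^δ)` with coefficients in `L`, as a Laurent series in `q`. -/
noncomputable def jgen (L : Type) [Field L] [Algebra ℚ L] (δ : ℕ) [NeZero δ] : LaurentSeries L :=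
  coeffEmb L (qExpand ℚ δ jq)

/-- Abstract `q^(1/N)`-expansion system: `Has A φ` means that the function `φ` on `ℍ` has the
expansion `A` in the variable `s = q^(1/N)` (coefficients in `L`, compared via `ι : L → ℂ`). -/
structure QExpSys (L : Type) [Field L] [Algebra ℚ L] (N : ℕ) [NeZero N] where
  /-- `Has A φ`: the function `φ` has the `s`-expansion `A` -/
  Has : LaurentSeries L → (ℍ → ℂ) → Prop
  /-- the embedding of the coefficient field -/
  ι : L →+* ℂ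
  has_add : ∀ {A B : LaurentSeries L} {φ ψ : ℍ → ℂ}, Has A φ → Has B ψ → Has (A + B) (φ + ψ)
  has_mul : ∀ {A B : LaurentSeries L} {φ ψ : ℍ → ℂ}, Has A φ → Has B ψ → Has (A * B) (φ * ψ)
  has_const : ∀ c : L, Has (algebraMap L (LaurentSeries L) c) (fun _ => ι c)
  has_unique : ∀ {A B : LaurentSeries L} {φ : ℍ → ℂ}, Has A φ → Has B φ → A = B
  has_fun : ∀ {A : LaurentSeries L} {φ ψ : ℍ → ℂ}, Has A φ → Has A ψ → φ = ψ
  /-- the root of unity `e^(2πi/N)` in `L` -/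
  ζ : Lˣ
  hζ : IsPrimitiveRoot ζ N
  has_shift : ∀ {A : LaurentSeries L} {φ : ℍ → ℂ}, Has A φ →
    Has (scale ζ A) (fun τ => φ (ModularGroup.T • τ))
  /-- the analytic `j`-function -/
  jfun : ℍ → ℂ
  jfun_smul : ∀ (γ : SL(2, ℤ)) (τ : ℍ), jfun (γ • τ) = jfun τ
  has_j : ∀ (a d : ℕ) (b : ℤ) (ha : 0 < a) (hd : 0 < d), a * d ∣ N →
    ∃ A : LaurentSeries L, Has A (fun τ => jfun (mob a d b ha hd τ))
  has_jgen : ∀ (δ : ℕ) [NeZero δ], δ ∣ N →
    Has (qExpand L N (jgen L δ))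
      (fun τ => jfun (mob δ 1 0 (Nat.pos_of_ne_zero (NeZero.ne δ)) one_pos τ))
  stab : ∀ g : SL(2, ℤ),
    (∀ τ : ℍ, jfun (mob N 1 0 (Nat.pos_of_ne_zero (NeZero.ne N)) one_pos (g • τ))
      = jfun (mob N 1 0 (Nat.pos_of_ne_zero (NeZero.ne N)) one_pos τ)) →
    g ∈ CongruenceSubgroup.Gamma0 N

variable {L : Type} [Field L] [Algebra ℚ L] {N : ℕ} [NeZero N] (Q : QExpSys L N)

namespace QExpSys

/-- `f` (a Laurent series in `q`) is *good*: it has an analytic avatar `φ`, invariant under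
`Γ₀(N)`, all of whose `SL(2,ℤ)`-translates have `s`-expansions. -/
def Good (f : LaurentSeries L) : Prop :=
  ∃ φ : ℍ → ℂ, Q.Has (qExpand L N f) φ ∧
    (∀ γ ∈ CongruenceSubgroup.Gamma0 N, ∀ τ : ℍ, φ (γ • τ) = φ τ) ∧
    ∀ γ : SL(2, ℤ), ∃ B : LaurentSeries L, Q.Has B (fun τ => φ (γ • τ))

omit [Algebra ℚ L] in
theorem qExpand_algebraMap (c : L) :
    qExpand L N (algebraMap L (LaurentSeries L) c) = algebraMap L (LaurentSeries L) c := by
  rw [algebraMap_laurentSeries_eq_single, qExpand_single, mul_zero]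

/-- The subalgebra of good Laurent series. -/
noncomputable def goodSubalgebra : Subalgebra L (LaurentSeries L) where
  carrier := {f | Q.Good f}
  mul_mem' := by
    rintro f g ⟨φ, hφ, hφΓ, hφB⟩ ⟨ψ, hψ, hψΓ, hψB⟩
    refine ⟨φ * ψ, ?_, ?_, ?_⟩
    · rw [map_mul]; exact Q.has_mul hφ hψ
    · intro γ hγ τ
      simp only [Pi.mul_apply, hφΓ γ hγ τ, hψΓ γ hγ τ]
    · intro γ
      obtain ⟨B, hB⟩ := hφB γ
      obtain ⟨C, hC⟩ := hψB γ
      exact ⟨B * C, Q.has_mul hB hC⟩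
  add_mem' := by
    rintro f g ⟨φ, hφ, hφΓ, hφB⟩ ⟨ψ, hψ, hψΓ, hψB⟩
    refine ⟨φ + ψ, ?_, ?_, ?_⟩
    · rw [map_add]; exact Q.has_add hφ hψ
    · intro γ hγ τ
      simp only [Pi.add_apply, hφΓ γ hγ τ, hψΓ γ hγ τ]
    · intro γ
      obtain ⟨B, hB⟩ := hφB γ
      obtain ⟨C, hC⟩ := hψB γ
      exact ⟨B + C, Q.has_add hB hC⟩
  algebraMap_mem' := by
    intro c
    refine ⟨fun _ => Q.ι c, ?_, fun _ _ _ => rfl, fun _ => ⟨_, Q.has_const c⟩⟩
    rw [qExpand_algebraMap]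
    exact Q.has_const c

theorem mem_goodSubalgebra {f : LaurentSeries L} : f ∈ Q.goodSubalgebra ↔ Q.Good f := Iff.rfl

/-- The analytic avatar of a good series. -/
noncomputable def funOf (f : Q.goodSubalgebra) : ℍ → ℂ := f.2.choose

theorem has_funOf (f : Q.goodSubalgebra) : Q.Has (qExpand L N (f : LaurentSeries L)) (Q.funOf f) :=
  f.2.choose_spec.1

theorem funOf_Gamma0 (f : Q.goodSubalgebra) (γ : SL(2, ℤ)) (hγ : γ ∈ CongruenceSubgroup.Gamma0 N)
    (τ : ℍ) : Q.funOf f (γ • τ) = Q.funOf f τ :=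
  f.2.choose_spec.2.1 γ hγ τ

theorem exists_has_smul (f : Q.goodSubalgebra) (γ : SL(2, ℤ)) :
    ∃ B : LaurentSeries L, Q.Has B (fun τ => Q.funOf f (γ • τ)) :=
  f.2.choose_spec.2.2 γ

theorem funOf_eq {f : Q.goodSubalgebra} {φ : ℍ → ℂ}
    (h : Q.Has (qExpand L N (f : LaurentSeries L)) φ) : Q.funOf f = φ :=
  Q.has_fun (Q.has_funOf f) h

theorem funOf_add (f g : Q.goodSubalgebra) : Q.funOf (f + g) = Q.funOf f + Q.funOf g :=
  Q.funOf_eq (by
    have : ((f + g : Q.goodSubalgebra) : LaurentSeries L) = (f : LaurentSeries L) + g := rfl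
    rw [this, map_add]
    exact Q.has_add (Q.has_funOf f) (Q.has_funOf g))

theorem funOf_mul (f g : Q.goodSubalgebra) : Q.funOf (f * g) = Q.funOf f * Q.funOf g :=
  Q.funOf_eq (by
    have : ((f * g : Q.goodSubalgebra) : LaurentSeries L) = (f : LaurentSeries L) * g := rfl
    rw [this, map_mul]
    exact Q.has_mul (Q.has_funOf f) (Q.has_funOf g))

theorem funOf_algebraMap (c : L) :
    Q.funOf (algebraMap L Q.goodSubalgebra c) = fun _ => Q.ι c :=
  Q.funOf_eq (by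
    have : ((algebraMap L Q.goodSubalgebra c : Q.goodSubalgebra) : LaurentSeries L)
        = algebraMap L (LaurentSeries L) c := rfl
    rw [this, qExpand_algebraMap]
    exact Q.has_const c)

/-- The `s`-expansion of `funOf f ∘ g⁻¹`. -/
noncomputable def cuspFun (g : SL(2, ℤ)) (f : Q.goodSubalgebra) : LaurentSeries L :=
  (Q.exists_has_smul f g⁻¹).choose

theorem has_cuspFun (g : SL(2, ℤ)) (f : Q.goodSubalgebra) :
    Q.Has (Q.cuspFun g f) (fun τ => Q.funOf f (g⁻¹ • τ)) :=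
  (Q.exists_has_smul f g⁻¹).choose_spec

theorem cuspFun_eq {g : SL(2, ℤ)} {f : Q.goodSubalgebra} {B : LaurentSeries L}
    (h : Q.Has B (fun τ => Q.funOf f (g⁻¹ • τ))) : Q.cuspFun g f = B :=
  Q.has_unique (Q.has_cuspFun g f) h

/-- The cusp embedding attached to `g : SL(2,ℤ)`: `f ↦ s`-expansion of `funOf f ∘ g⁻¹`. -/
noncomputable def cuspHom (g : SL(2, ℤ)) : Q.goodSubalgebra →ₐ[L] LaurentSeries L where
  toFun := Q.cuspFun g
  map_one' := by
    apply Q.cuspFun_eq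
    have h1 : (1 : Q.goodSubalgebra) = algebraMap L Q.goodSubalgebra 1 := (map_one _).symm
    rw [h1, Q.funOf_algebraMap]
    have := Q.has_const 1
    rwa [map_one] at this
  map_mul' f g' := by
    apply Q.cuspFun_eq
    rw [Q.funOf_mul]
    exact Q.has_mul (Q.has_cuspFun g f) (Q.has_cuspFun g g')
  map_zero' := by
    apply Q.cuspFun_eq
    have h1 : (0 : Q.goodSubalgebra) = algebraMap L Q.goodSubalgebra 0 := (map_zero _).symm
    rw [h1, Q.funOf_algebraMap]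
    have := Q.has_const 0
    rwa [map_zero] at this
  map_add' f g' := by
    apply Q.cuspFun_eq
    rw [Q.funOf_add]
    exact Q.has_add (Q.has_cuspFun g f) (Q.has_cuspFun g g')
  commutes' c := by
    apply Q.cuspFun_eq
    rw [Q.funOf_algebraMap]
    exact Q.has_const c

theorem has_cuspHom (g : SL(2, ℤ)) (f : Q.goodSubalgebra) :
    Q.Has (Q.cuspHom g f) (fun τ => Q.funOf f (g⁻¹ • τ)) :=
  Q.has_cuspFun g f

theorem cuspHom_eq {g : SL(2, ℤ)} {f : Q.goodSubalgebra} {B : LaurentSeries L}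
    (h : Q.Has B (fun τ => Q.funOf f (g⁻¹ • τ))) : Q.cuspHom g f = B :=
  Q.cuspFun_eq h

/-! ### Basic properties of the cusp embeddings -/

theorem cuspHom_one (f : Q.goodSubalgebra) :
    Q.cuspHom 1 f = qExpand L N (f : LaurentSeries L) := by
  apply Q.cuspHom_eq
  have h := Q.has_funOf f
  have e : (fun τ => Q.funOf f ((1 : SL(2, ℤ))⁻¹ • τ)) = Q.funOf f := by
    funext τ
    rw [inv_one, one_smul]
  rw [e]
  exact h

theorem cuspHom_injective (g : SL(2, ℤ)) : Function.Injective (Q.cuspHom g) := by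
  intro f f' h
  have h1 := Q.has_cuspHom g f
  have h2 := Q.has_cuspHom g f'
  rw [h] at h1
  have h3 := Q.has_fun h1 h2
  have h4 : Q.funOf f = Q.funOf f' := by
    funext τ
    have := congrFun h3 (g • τ)
    simpa using this
  have h5 := Q.has_funOf f
  rw [h4] at h5
  have h6 := Q.has_unique h5 (Q.has_funOf f')
  exact Subtype.ext (qExpand_injective N h6)

theorem cuspHom_mul_of_mem_Gamma0 (g γ₀ : SL(2, ℤ))
    (hγ₀ : γ₀ ∈ CongruenceSubgroup.Gamma0 N) : Q.cuspHom (g * γ₀) = Q.cuspHom g := by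
  apply AlgHom.ext
  intro f
  apply Q.cuspHom_eq
  have h := Q.has_cuspHom g f
  have e : (fun τ => Q.funOf f ((g * γ₀)⁻¹ • τ)) = fun τ => Q.funOf f (g⁻¹ • τ) := by
    funext τ
    rw [mul_inv_rev, mul_smul]
    exact Q.funOf_Gamma0 f γ₀⁻¹ (inv_mem hγ₀) _
  rw [e]
  exact h

theorem scale_cuspHom_T_mul (g : SL(2, ℤ)) (f : Q.goodSubalgebra) :
    scale Q.ζ (Q.cuspHom (ModularGroup.T * g) f) = Q.cuspHom g f := by
  symm
  apply Q.cuspHom_eq
  have h := Q.has_shift (Q.has_cuspHom (ModularGroup.T * g) f)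
  have e : (fun τ => Q.funOf f ((ModularGroup.T * g)⁻¹ • ModularGroup.T • τ))
      = fun τ => Q.funOf f (g⁻¹ • τ) := by
    funext τ
    rw [mul_inv_rev, mul_smul, inv_smul_smul]
  rw [e] at h
  exact h

theorem order_cuspHom_T_mul (g : SL(2, ℤ)) (f : Q.goodSubalgebra) :
    (Q.cuspHom (ModularGroup.T * g) f).order = (Q.cuspHom g f).order := by
  rw [← Q.scale_cuspHom_T_mul g f, order_scale]

theorem scale_pow_cuspHom_T_pow_mul (m : ℕ) (g : SL(2, ℤ)) (f : Q.goodSubalgebra) :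
    scale (Q.ζ ^ m) (Q.cuspHom (ModularGroup.T ^ m * g) f) = Q.cuspHom g f := by
  induction m generalizing g with
  | zero => simp
  | succ m ih =>
    have e1 : Q.ζ ^ (m + 1) = Q.ζ ^ m * Q.ζ := pow_succ _ _
    have e2 : ModularGroup.T ^ (m + 1) * g = ModularGroup.T * (ModularGroup.T ^ m * g) := by
      rw [pow_succ', mul_assoc]
    rw [e1, e2, scale_mul, Q.scale_cuspHom_T_mul, ih]

/-- If `T^m` fixes the coset of `g` then `N ∣ m * ord`. -/
theorem dvd_mul_order_cuspHom (m : ℕ) (g : SL(2, ℤ))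
    (h : Q.cuspHom (ModularGroup.T ^ m * g) = Q.cuspHom g) (f : Q.goodSubalgebra) :
    (N : ℤ) ∣ (m : ℤ) * (Q.cuspHom g f).order := by
  have h1 := Q.scale_pow_cuspHom_T_pow_mul m g f
  rw [h] at h1
  exact dvd_mul_order_of_scale_pow_eq Q.hζ m h1

/-! ### The generators are good -/

theorem good_jgen (δ : ℕ) [NeZero δ] (hδ : δ ∣ N) : Q.Good (jgen L δ) := by
  have hδpos : 0 < δ := Nat.pos_of_ne_zero (NeZero.ne δ)
  refine ⟨fun τ => Q.jfun (mob δ 1 0 hδpos one_pos τ), Q.has_jgen δ hδ, ?_, ?_⟩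
  · intro γ hγ τ
    obtain ⟨γ', hγ'⟩ := exists_smul_mob_of_mem_Gamma0 N δ hδpos hδ γ hγ
    show Q.jfun (mob δ 1 0 hδpos one_pos (γ • τ)) = Q.jfun (mob δ 1 0 hδpos one_pos τ)
    rw [hγ' τ, Q.jfun_smul]
  · intro γ
    obtain ⟨γ', a, d, b, ha, hd, had, -, hτ⟩ := exists_hnf δ hδpos γ
    obtain ⟨A, hA⟩ := Q.has_j a d b ha hd (had ▸ hδ)
    refine ⟨A, ?_⟩
    have e : (fun τ => Q.jfun (mob δ 1 0 hδpos one_pos (γ • τ)))
        = fun τ => Q.jfun (mob a d b ha hd τ) := by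
      funext τ
      rw [hτ τ, Q.jfun_smul]
    rw [e]
    exact hA

/-- The generator `j(q^δ)` as an element of the good subalgebra. -/
noncomputable def jG (δ : ℕ) [NeZero δ] (hδ : δ ∣ N) : Q.goodSubalgebra :=
  ⟨jgen L δ, Q.good_jgen δ hδ⟩

@[simp]
theorem coe_jG (δ : ℕ) [NeZero δ] (hδ : δ ∣ N) :
    ((Q.jG δ hδ : Q.goodSubalgebra) : LaurentSeries L) = jgen L δ := rfl

theorem funOf_jG (δ : ℕ) [NeZero δ] (hδ : δ ∣ N) :
    Q.funOf (Q.jG δ hδ)
      = fun τ => Q.jfun (mob δ 1 0 (Nat.pos_of_ne_zero (NeZero.ne δ)) one_pos τ) :=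
  Q.funOf_eq (Q.has_jgen δ hδ)

theorem funOf_jG_one : Q.funOf (Q.jG 1 (one_dvd N)) = Q.jfun := by
  rw [Q.funOf_jG]
  funext τ
  rw [mob_one]

theorem cuspHom_jG_one (g : SL(2, ℤ)) :
    Q.cuspHom g (Q.jG 1 (one_dvd N)) = qExpand L N (jgen L 1) := by
  apply Q.cuspHom_eq
  rw [Q.funOf_jG_one]
  have h := Q.has_jgen 1 (one_dvd N)
  have e : (fun τ => Q.jfun (g⁻¹ • τ))
      = fun τ => Q.jfun (mob 1 1 0 (Nat.pos_of_ne_zero (NeZero.ne 1)) one_pos τ) := by
    funext τ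
    rw [Q.jfun_smul, mob_one]
  rw [e]
  exact h

theorem jgen_one : jgen L 1 = coeffEmb L jq := by
  rw [jgen, qExpand_one_apply]

theorem order_qExpand_jgen_one : (qExpand L N (jgen L 1)).order = -(N : ℤ) := by
  rw [order_qExpand, jgen_one, coeffEmb_jq, order_jqModC]
  ring

theorem qExpand_jgen_one_ne_zero : qExpand L N (jgen L 1) ≠ 0 := by
  intro h
  have h1 := order_qExpand_jgen_one (L := L) (N := N)
  rw [h, HahnSeries.order_zero] at h1
  have : (N : ℤ) ≠ 0 := by exact_mod_cast NeZero.ne N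
  omega

theorem order_cuspHom_jG_one (g : SL(2, ℤ)) :
    (Q.cuspHom g (Q.jG 1 (one_dvd N))).order = -(N : ℤ) := by
  rw [Q.cuspHom_jG_one, order_qExpand_jgen_one]

/-! ### Distinctness -/

theorem mem_Gamma0_of_cuspHom_eq (g g' : SL(2, ℤ))
    (h : Q.cuspHom g (Q.jG N dvd_rfl) = Q.cuspHom g' (Q.jG N dvd_rfl)) :
    g⁻¹ * g' ∈ CongruenceSubgroup.Gamma0 N := by
  apply Q.stab
  intro τ
  have h1 := Q.has_cuspHom g (Q.jG N dvd_rfl)
  have h2 := Q.has_cuspHom g' (Q.jG N dvd_rfl)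
  rw [h] at h1
  have h3 := congrFun (Q.has_fun h1 h2) (g' • τ)
  simp only [inv_smul_smul] at h3
  rw [Q.funOf_jG] at h3
  rw [mul_smul]
  exact h3

/-! ### Descent to left cosets -/

/-- The cusp embedding attached to a left coset `g Γ₀(N)`. -/
noncomputable def cuspQ (x : SL(2, ℤ) ⧸ CongruenceSubgroup.Gamma0 N) :
    Q.goodSubalgebra →ₐ[L] LaurentSeries L :=
  Q.cuspHom (Quotient.out x)

theorem cuspQ_mk (g : SL(2, ℤ)) :
    Q.cuspQ (g : SL(2, ℤ) ⧸ CongruenceSubgroup.Gamma0 N) = Q.cuspHom g := by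
  obtain ⟨h, hh⟩ := QuotientGroup.mk_out_eq_mul (CongruenceSubgroup.Gamma0 N) g
  rw [cuspQ, hh]
  exact Q.cuspHom_mul_of_mem_Gamma0 g h h.2

/-- Distinct cosets are separated by the generator `j(q^N)`. -/
theorem eq_of_cuspQ_jG_eq (x y : SL(2, ℤ) ⧸ CongruenceSubgroup.Gamma0 N)
    (hxy : Q.cuspQ x (Q.jG N dvd_rfl) = Q.cuspQ y (Q.jG N dvd_rfl)) : x = y := by
  induction x using QuotientGroup.induction_on with
  | H g =>
    induction y using QuotientGroup.induction_on with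
    | H g' =>
      rw [Q.cuspQ_mk, Q.cuspQ_mk] at hxy
      exact QuotientGroup.eq.mpr (Q.mem_Gamma0_of_cuspHom_eq g g' hxy)

theorem cuspQ_apply_injective (x : SL(2, ℤ) ⧸ CongruenceSubgroup.Gamma0 N) :
    Function.Injective (Q.cuspQ x) :=
  Q.cuspHom_injective _

/-- `T` acts on the cusp embeddings by the substitution `s ↦ ζ⁻¹ s`. -/
theorem cuspQ_T_smul (x : SL(2, ℤ) ⧸ CongruenceSubgroup.Gamma0 N) (f : Q.goodSubalgebra) :
    Q.cuspQ (ModularGroup.T • x) f = scale Q.ζ⁻¹ (Q.cuspQ x f) := by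
  induction x using QuotientGroup.induction_on with
  | H g =>
    have e : ModularGroup.T • (g : SL(2, ℤ) ⧸ CongruenceSubgroup.Gamma0 N)
        = ((ModularGroup.T * g : SL(2, ℤ)) : SL(2, ℤ) ⧸ CongruenceSubgroup.Gamma0 N) := rfl
    rw [e, Q.cuspQ_mk, Q.cuspQ_mk, ← Q.scale_cuspHom_T_mul g f, scale_inv_scale]

theorem cuspQ_jG_one (x : SL(2, ℤ) ⧸ CongruenceSubgroup.Gamma0 N) :
    Q.cuspQ x (Q.jG 1 (one_dvd N)) = qExpand L N (jgen L 1) :=
  Q.cuspHom_jG_one _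

end QExpSys

end Fermat.Agent.S24.Cusp
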